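import Mathlib

/-!
# S16 / LB: the discriminant module of an even integral lattice of level `p`

`A B : Matrix ι ι ℤ` symmetric with even diagonals and `A * B = B * A = p • 1`.
`Disc A = ℤ^ι ⧸ A ℤ^ι`, with the quadratic form `qD c = zᵀ B z / 2 mod p` and the bilinear form
`bD c c' = zᵀ B z' mod p`.
-/

set_option autoImplicit false
set_option linter.unusedSectionVars false
set_option linter.unusedVariables false

namespace Fermat.Agent.S16.H482

open Matrix

variable {ι : Type*} [Fintype ι] [DecidableEq ι]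

/-- The integer `zᵀ B z'`. -/
def bil (B : Matrix ι ι ℤ) (z z' : ι → ℤ) : ℤ := z ⬝ᵥ (B *ᵥ z')

lemma bil_add_left (B : Matrix ι ι ℤ) (x y z : ι → ℤ) :
    bil B (x + y) z = bil B x z + bil B y z := by
  simp [bil, add_dotProduct]

lemma bil_add_right (B : Matrix ι ι ℤ) (x y z : ι → ℤ) :
    bil B x (y + z) = bil B x y + bil B x z := by
  simp [bil, mulVec_add, dotProduct_add]

lemma bil_zero_left (B : Matrix ι ι ℤ) (z : ι → ℤ) : bil B 0 z = 0 := by
  simp [bil]

lemma bil_zero_right (B : Matrix ι ι ℤ) (z : ι → ℤ) : bil B z 0 = 0 := by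
  simp [bil]

lemma bil_comm {B : Matrix ι ι ℤ} (hB : B.IsSymm) (x y : ι → ℤ) : bil B x y = bil B y x := by
  unfold bil
  rw [dotProduct_mulVec, ← mulVec_transpose, hB.eq, dotProduct_comm]

lemma bil_mulVec_right {A B : Matrix ι ι ℤ} {p : ℤ} (hBA : B * A = p • 1) (x y : ι → ℤ) :
    bil B x (A *ᵥ y) = p * (x ⬝ᵥ y) := by
  unfold bil
  rw [mulVec_mulVec, hBA, smul_mulVec, one_mulVec, dotProduct_smul, smul_eq_mul]

lemma bil_mulVec_left {A B : Matrix ι ι ℤ} {p : ℤ} (hB : B.IsSymm) (hBA : B * A = p • 1)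
    (x y : ι → ℤ) : bil B (A *ᵥ x) y = p * (x ⬝ᵥ y) := by
  rw [bil_comm hB, bil_mulVec_right hBA, dotProduct_comm]

/-- For a symmetric matrix with even diagonal, `zᵀ B z` is even. -/
lemma even_bil_self {B : Matrix ι ι ℤ} (hB : B.IsSymm) (hev : ∀ i, Even (B i i)) (z : ι → ℤ) :
    Even (bil B z z) := by
  rw [← (ZMod.intCast_zmod_eq_zero_iff_dvd _ 2).trans even_iff_two_dvd.symm]
  have h1 : bil B z z = ∑ a ∈ (Finset.univ : Finset (ι × ι)), z a.1 * (B a.1 a.2 * z a.2) := by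
    unfold bil
    rw [← Finset.univ_product_univ, Finset.sum_product]
    simp [dotProduct, mulVec, Finset.mul_sum]
  rw [h1, Int.cast_sum]
  refine Finset.sum_involution (fun a _ => (a.2, a.1)) ?_ ?_ ?_ ?_
  · intro a _
    have hs : B a.2 a.1 = B a.1 a.2 := hB.apply a.1 a.2
    simp only [hs]
    have : ((z a.1 * (B a.1 a.2 * z a.2) : ℤ) : ZMod 2) + ((z a.2 * (B a.1 a.2 * z a.1) : ℤ) : ZMod 2)
        = ((2 * (z a.1 * (B a.1 a.2 * z a.2)) : ℤ) : ZMod 2) := by
      push_cast; ring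
    rw [this]
    push_cast
    have h2 : (2 : ZMod 2) = 0 := rfl
    rw [h2, zero_mul]
  · intro a _ hne heq
    apply hne
    have h12 : a.2 = a.1 := by
      have := congrArg Prod.fst heq
      simpa using this
    rw [h12]
    obtain ⟨m, hm⟩ := hev a.1
    rw [hm]
    push_cast
    have h2 : (m : ZMod 2) + m = 0 := by
      rw [← two_mul]
      have h2 : (2 : ZMod 2) = 0 := rfl
      rw [h2, zero_mul]
    rw [h2]; ring
  · intro a _; exact Finset.mem_univ _
  · intro a _; rfl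

/-- Half of `zᵀ B z`. -/
def halfQ (B : Matrix ι ι ℤ) (z : ι → ℤ) : ℤ := bil B z z / 2

lemma two_mul_halfQ {B : Matrix ι ι ℤ} (hB : B.IsSymm) (hev : ∀ i, Even (B i i)) (z : ι → ℤ) :
    2 * halfQ B z = bil B z z :=
  Int.two_mul_ediv_two_of_even (even_bil_self hB hev z)

lemma halfQ_add {B : Matrix ι ι ℤ} (hB : B.IsSymm) (hev : ∀ i, Even (B i i)) (x y : ι → ℤ) :
    halfQ B (x + y) = halfQ B x + halfQ B y + bil B x y := by
  have h1 := two_mul_halfQ hB hev (x + y)
  have h2 := two_mul_halfQ hB hev x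
  have h3 := two_mul_halfQ hB hev y
  rw [bil_add_left, bil_add_right, bil_add_right, bil_comm hB y x] at h1
  linarith

lemma halfQ_zero (B : Matrix ι ι ℤ) : halfQ B 0 = 0 := by
  simp [halfQ, bil]

lemma halfQ_neg (B : Matrix ι ι ℤ) (z : ι → ℤ) : halfQ B (-z) = halfQ B z := by
  simp [halfQ, bil, mulVec_neg]

/-- `halfQ B (A x) = p * halfQ A x`. -/
lemma halfQ_mulVec {A B : Matrix ι ι ℤ} {p : ℤ} (hA : A.IsSymm) (hB : B.IsSymm)
    (hevA : ∀ i, Even (A i i)) (hevB : ∀ i, Even (B i i)) (hBA : B * A = p • 1) (x : ι → ℤ) :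
    halfQ B (A *ᵥ x) = p * halfQ A x := by
  have h1 := two_mul_halfQ hB hevB (A *ᵥ x)
  have h2 := two_mul_halfQ hA hevA x
  rw [bil_mulVec_right hBA] at h1
  have h3 : (A *ᵥ x) ⬝ᵥ x = bil A x x := by
    unfold bil
    rw [dotProduct_comm]
  rw [h3] at h1
  have : 2 * halfQ B (A *ᵥ x) = 2 * (p * halfQ A x) := by
    rw [h1, ← h2]; ring
  linarith

/-- The sublattice `A ℤ^ι ⊆ ℤ^ι`. -/
def latSub (A : Matrix ι ι ℤ) : Submodule ℤ (ι → ℤ) := LinearMap.range A.mulVecLin

lemma mem_latSub {A : Matrix ι ι ℤ} {z : ι → ℤ} : z ∈ latSub A ↔ ∃ x, A *ᵥ x = z := by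
  simp [latSub, LinearMap.mem_range]

/-- The discriminant module `ℤ^ι ⧸ A ℤ^ι`. -/
abbrev Disc (A : Matrix ι ι ℤ) : Type _ := (ι → ℤ) ⧸ latSub A

/-- The class of `z` in the discriminant module. -/
abbrev cls (A : Matrix ι ι ℤ) (z : ι → ℤ) : Disc A := Submodule.Quotient.mk z

lemma cls_eq_cls_iff {A : Matrix ι ι ℤ} {z z' : ι → ℤ} :
    cls A z = cls A z' ↔ ∃ x, z = z' + A *ᵥ x := by
  rw [Submodule.Quotient.eq, mem_latSub]
  constructor
  · rintro ⟨x, hx⟩
    exact ⟨x, by rw [hx]; abel⟩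
  · rintro ⟨x, hx⟩
    exact ⟨x, by rw [hx]; abel⟩

lemma mulVec_injective_of_mul {A B : Matrix ι ι ℤ} {p : ℤ} (hp : p ≠ 0) (hBA : B * A = p • 1) :
    Function.Injective (fun x : ι → ℤ => A *ᵥ x) := by
  intro x y hxy
  have h : B *ᵥ (A *ᵥ x) = B *ᵥ (A *ᵥ y) := congrArg _ hxy
  rw [mulVec_mulVec, mulVec_mulVec, hBA, smul_mulVec, smul_mulVec, one_mulVec, one_mulVec] at h
  funext i
  have := congrFun h i
  simp only [Pi.smul_apply, smul_eq_mul] at this
  exact mul_left_cancel₀ hp this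

section forms

variable {A B : Matrix ι ι ℤ} {p : ℕ}

/-- The quadratic form `Disc A → ZMod p`, `c ↦ zᵀ B z / 2`. -/
def qD (hA : A.IsSymm) (hB : B.IsSymm) (hevA : ∀ i, Even (A i i)) (hevB : ∀ i, Even (B i i))
    (hBA : B * A = (p : ℤ) • 1) : Disc A → ZMod p :=
  Quotient.lift (fun z : ι → ℤ => ((halfQ B z : ℤ) : ZMod p)) (by
    intro z z' h
    have h' : cls A z = cls A z' := Quotient.sound h
    obtain ⟨x, rfl⟩ := cls_eq_cls_iff.mp h'
    rw [halfQ_add hB hevB, halfQ_mulVec hA hB hevA hevB hBA, bil_mulVec_right hBA]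
    push_cast
    rw [ZMod.natCast_self]
    ring)

@[simp] lemma qD_cls (hA : A.IsSymm) (hB : B.IsSymm) (hevA : ∀ i, Even (A i i))
    (hevB : ∀ i, Even (B i i)) (hBA : B * A = (p : ℤ) • 1) (z : ι → ℤ) :
    qD hA hB hevA hevB hBA (cls A z) = ((halfQ B z : ℤ) : ZMod p) := rfl

/-- The bilinear form `Disc A → Disc A → ZMod p`, `(c, c') ↦ zᵀ B z'`. -/
def bD (hB : B.IsSymm) (hBA : B * A = (p : ℤ) • 1) : Disc A → Disc A → ZMod p :=
  Quotient.lift₂ (fun z z' : ι → ℤ => ((bil B z z' : ℤ) : ZMod p)) (by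
    intro z₁ z₂ z₁' z₂' h1 h2
    have h1' : cls A z₁ = cls A z₁' := Quotient.sound h1
    have h2' : cls A z₂ = cls A z₂' := Quotient.sound h2
    obtain ⟨x, rfl⟩ := cls_eq_cls_iff.mp h1'
    obtain ⟨y, rfl⟩ := cls_eq_cls_iff.mp h2'
    rw [bil_add_left, bil_add_right, bil_add_right, bil_mulVec_right hBA,
      bil_mulVec_left hB hBA, bil_mulVec_left hB hBA]
    push_cast
    rw [ZMod.natCast_self]
    ring)

@[simp] lemma bD_cls (hB : B.IsSymm) (hBA : B * A = (p : ℤ) • 1) (z z' : ι → ℤ) :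
    bD hB hBA (cls A z) (cls A z') = ((bil B z z' : ℤ) : ZMod p) := rfl

lemma bD_comm (hB : B.IsSymm) (hBA : B * A = (p : ℤ) • 1) (c c' : Disc A) :
    bD hB hBA c c' = bD hB hBA c' c := by
  induction c using Submodule.Quotient.induction_on with
  | _ z =>
    induction c' using Submodule.Quotient.induction_on with
    | _ z' => simp [bil_comm hB z z']

lemma bD_add_left (hB : B.IsSymm) (hBA : B * A = (p : ℤ) • 1) (c₁ c₂ c' : Disc A) :
    bD hB hBA (c₁ + c₂) c' = bD hB hBA c₁ c' + bD hB hBA c₂ c' := by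
  induction c₁ using Submodule.Quotient.induction_on with
  | _ z₁ =>
    induction c₂ using Submodule.Quotient.induction_on with
    | _ z₂ =>
      induction c' using Submodule.Quotient.induction_on with
      | _ z' =>
        have h : (Submodule.Quotient.mk z₁ + Submodule.Quotient.mk z₂ : Disc A) =
            cls A (z₁ + z₂) := rfl
        rw [h, bD_cls, bD_cls, bD_cls, bil_add_left]
        push_cast
        rfl

lemma bD_add_right (hB : B.IsSymm) (hBA : B * A = (p : ℤ) • 1) (c c₁ c₂ : Disc A) :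
    bD hB hBA c (c₁ + c₂) = bD hB hBA c c₁ + bD hB hBA c c₂ := by
  rw [bD_comm, bD_add_left, bD_comm hB hBA c₁, bD_comm hB hBA c₂]

lemma bD_zero_left (hB : B.IsSymm) (hBA : B * A = (p : ℤ) • 1) (c : Disc A) :
    bD hB hBA 0 c = 0 := by
  induction c using Submodule.Quotient.induction_on with
  | _ z =>
    have h : (0 : Disc A) = cls A 0 := rfl
    rw [h, bD_cls, bil_zero_left]
    simp

lemma bD_zero_right (hB : B.IsSymm) (hBA : B * A = (p : ℤ) • 1) (c : Disc A) :
    bD hB hBA c 0 = 0 := by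
  rw [bD_comm, bD_zero_left]

lemma qD_add (hA : A.IsSymm) (hB : B.IsSymm) (hevA : ∀ i, Even (A i i))
    (hevB : ∀ i, Even (B i i)) (hBA : B * A = (p : ℤ) • 1) (c c' : Disc A) :
    qD hA hB hevA hevB hBA (c + c') =
      qD hA hB hevA hevB hBA c + qD hA hB hevA hevB hBA c' + bD hB hBA c c' := by
  induction c using Submodule.Quotient.induction_on with
  | _ z =>
    induction c' using Submodule.Quotient.induction_on with
    | _ z' =>
      have h : (Submodule.Quotient.mk z + Submodule.Quotient.mk z' : Disc A) =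
          cls A (z + z') := rfl
      rw [h, qD_cls, qD_cls, qD_cls, bD_cls, halfQ_add hB hevB]
      push_cast
      rfl

lemma qD_zero (hA : A.IsSymm) (hB : B.IsSymm) (hevA : ∀ i, Even (A i i))
    (hevB : ∀ i, Even (B i i)) (hBA : B * A = (p : ℤ) • 1) :
    qD hA hB hevA hevB hBA (0 : Disc A) = 0 := by
  have h : (0 : Disc A) = cls A 0 := rfl
  rw [h, qD_cls, halfQ_zero]
  simp

lemma qD_neg (hA : A.IsSymm) (hB : B.IsSymm) (hevA : ∀ i, Even (A i i))
    (hevB : ∀ i, Even (B i i)) (hBA : B * A = (p : ℤ) • 1) (c : Disc A) :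
    qD hA hB hevA hevB hBA (-c) = qD hA hB hevA hevB hBA c := by
  induction c using Submodule.Quotient.induction_on with
  | _ z =>
    have h : (-Submodule.Quotient.mk z : Disc A) = cls A (-z) := rfl
    rw [h, qD_cls, qD_cls, halfQ_neg]

lemma two_mul_qD (hA : A.IsSymm) (hB : B.IsSymm) (hevA : ∀ i, Even (A i i))
    (hevB : ∀ i, Even (B i i)) (hBA : B * A = (p : ℤ) • 1) (c : Disc A) :
    2 * qD hA hB hevA hevB hBA c = bD hB hBA c c := by
  induction c using Submodule.Quotient.induction_on with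
  | _ z =>
    simp only [qD_cls, bD_cls]
    rw [← two_mul_halfQ hB hevB z]
    push_cast
    ring

/-- Nondegeneracy of the bilinear form on the discriminant module. -/
lemma bD_nondegenerate (hp : 0 < p) (hB : B.IsSymm) (hAB : A * B = (p : ℤ) • 1)
    (hBA : B * A = (p : ℤ) • 1) (c : Disc A) (h : ∀ c', bD hB hBA c c' = 0) : c = 0 := by
  induction c using Submodule.Quotient.induction_on with
  | _ z =>
    -- `B z ∈ p ℤ^ι`
    have h1 : ∀ i, (p : ℤ) ∣ (B *ᵥ z) i := by
      intro i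
      have := h (cls A (Pi.single i 1))
      rw [bD_cls, bil_comm hB] at this
      have h2 : bil B (Pi.single i 1) z = (B *ᵥ z) i := by
        simp [bil]
      rw [h2] at this
      exact (ZMod.intCast_zmod_eq_zero_iff_dvd _ p).mp this
    choose w hw using h1
    have h3 : B *ᵥ z = (p : ℤ) • w := by
      funext i
      simp [hw i]
    rw [Submodule.Quotient.mk_eq_zero, mem_latSub]
    refine ⟨w, ?_⟩
    have h4 : A *ᵥ (B *ᵥ z) = (p : ℤ) • z := by
      rw [mulVec_mulVec, hAB, smul_mulVec, one_mulVec]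
    rw [h3, mulVec_smul] at h4
    funext i
    have := congrFun h4 i
    simp only [Pi.smul_apply, smul_eq_mul] at this
    have hp' : (p : ℤ) ≠ 0 := by exact_mod_cast hp.ne'
    exact mul_left_cancel₀ hp' this

end forms

section card

variable {A B : Matrix ι ι ℤ} {p : ℤ}

/-- `#(ℤ^ι ⧸ A ℤ^ι) = |det A|`. -/
theorem card_Disc (hp : p ≠ 0) (hBA : B * A = p • 1) : Nat.card (Disc A) = A.det.natAbs := by
  have hinj : Function.Injective A.mulVecLin := mulVec_injective_of_mul hp hBA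
  let e : (ι → ℤ) ≃ₗ[ℤ] latSub A := LinearEquiv.ofInjective A.mulVecLin hinj
  have h := Submodule.natAbs_det_equiv (latSub A) e
  rw [← h]
  have h2 : (latSub A).subtype ∘ₗ (AddMonoidHom.toIntLinearMap ((e : (ι → ℤ) ≃+ latSub A) :
      (ι → ℤ) →+ latSub A)) = A.mulVecLin := by
    ext x i
    rfl
  have h3 : LinearMap.det ((latSub A).subtype ∘ₗ (AddMonoidHom.toIntLinearMap
      ((e : (ι → ℤ) ≃+ latSub A) : (ι → ℤ) →+ latSub A))) = A.det := by
    rw [h2, ← LinearMap.det_toLin' A, Matrix.toLin'_apply']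
  exact congrArg Int.natAbs h3

lemma det_ne_zero_of_mul (hp : p ≠ 0) (hBA : B * A = p • 1) : A.det ≠ 0 := by
  intro h0
  have h1 : (B * A).det = (p • (1 : Matrix ι ι ℤ)).det := by rw [hBA]
  rw [Matrix.det_mul, h0, mul_zero, Matrix.det_smul, Matrix.det_one, mul_one] at h1
  exact pow_ne_zero _ hp h1.symm

lemma finite_Disc (hp : p ≠ 0) (hBA : B * A = p • 1) : Finite (Disc A) := by
  apply Nat.finite_of_card_ne_zero
  rw [card_Disc hp hBA]
  exact Int.natAbs_ne_zero.mpr (det_ne_zero_of_mul hp hBA)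

end card

end Fermat.Agent.S16.H482
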