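import Fermat.Agent.S16.H482.Disc

/-!
# S16 / LB: theta series of the cosets of `A ℤ^ι` — the laws (T) and (S)

`Θ_c(τ) = ∑_{z ∈ c} exp (π i τ zᵀ B z / p)` for `c ∈ Disc A = ℤ^ι ⧸ A ℤ^ι`
(note `zᵀ B z / p = zᵀ A⁻¹ z`; with `z = A (x + h)`, `h = A⁻¹ z₀`, this is the classical
`∑_x exp (π i τ (x + h)ᵀ A (x + h))`).

* `Theta_add_one` : (T) `Θ_c(τ + 1) = ψ(q c) Θ_c(τ)`, `ψ = ZMod.stdAddChar`.
* `Theta_inversion` : (S) `Θ_c(-1/τ) = κ ∑_{c'} ψ(b c' c) Θ_{c'}(τ)` from the theta inversion formula for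
  the single coset sums, given as an explicit hypothesis.
-/

set_option autoImplicit false
set_option linter.unusedSectionVars false
set_option linter.unusedVariables false

namespace Fermat.Agent.S16.H482

open Matrix Complex

variable {ι : Type*} [Fintype ι] [DecidableEq ι]

/-- The theta term `exp (π i τ zᵀBz / p)`. -/
noncomputable def thTerm (B : Matrix ι ι ℤ) (p : ℕ) (τ : ℂ) (z : ι → ℤ) : ℂ :=
  Complex.exp (Real.pi * I * τ * (bil B z z : ℂ) / p)

/-- `Θ_c(τ) = ∑_{z ∈ c} exp (π i τ zᵀBz / p)`. -/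
noncomputable def Theta (A B : Matrix ι ι ℤ) (p : ℕ) (c : Disc A) (τ : ℂ) : ℂ :=
  ∑' z : ι → ℤ, Set.indicator {z | cls A z = c} (thTerm B p τ) z

section

variable {A B : Matrix ι ι ℤ} {p : ℕ} [NeZero p]

lemma thTerm_add_one (hB : B.IsSymm) (hevB : ∀ i, Even (B i i)) (τ : ℂ) (z : ι → ℤ) :
    thTerm B p (τ + 1) z = ZMod.stdAddChar ((halfQ B z : ℤ) : ZMod p) * thTerm B p τ z := by
  rw [ZMod.stdAddChar_coe]
  unfold thTerm
  rw [← Complex.exp_add]
  congr 1
  have h := two_mul_halfQ hB hevB z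
  have hp : (p : ℂ) ≠ 0 := Nat.cast_ne_zero.mpr (NeZero.ne p)
  rw [← h]
  push_cast
  field_simp
  ring

/-- **(T)** -/
theorem Theta_add_one (hA : A.IsSymm) (hB : B.IsSymm) (hevA : ∀ i, Even (A i i))
    (hevB : ∀ i, Even (B i i)) (hBA : B * A = (p : ℤ) • 1) (c : Disc A) (τ : ℂ) :
    Theta A B p c (τ + 1) =
      ZMod.stdAddChar (qD hA hB hevA hevB hBA c) * Theta A B p c τ := by
  unfold Theta
  rw [← tsum_mul_left]
  refine tsum_congr fun z => ?_
  by_cases h : cls A z = c
  · rw [Set.indicator_of_mem (by exact h), Set.indicator_of_mem (by exact h),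
      thTerm_add_one hB hevB, ← h, qD_cls]
  · rw [Set.indicator_of_notMem (by exact h), Set.indicator_of_notMem (by exact h), mul_zero]

/-- Regrouping a sum over `ℤ^ι` of a class function times the theta term. -/
theorem tsum_classFun_mul_thTerm [Fintype (Disc A)] (τ : ℂ) (hsum : Summable (thTerm B p τ))
    (F : Disc A → ℂ) :
    ∑' z : ι → ℤ, F (cls A z) * thTerm B p τ z = ∑ c, F c * Theta A B p c τ := by
  classical
  unfold Theta
  have h1 : ∀ c ∈ (Finset.univ : Finset (Disc A)),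
      Summable (fun z : ι → ℤ => F c * Set.indicator {z | cls A z = c} (thTerm B p τ) z) :=
    fun c _ => (hsum.indicator _).mul_left _
  calc ∑' z : ι → ℤ, F (cls A z) * thTerm B p τ z
      = ∑' z : ι → ℤ, ∑ c, F c * Set.indicator {z | cls A z = c} (thTerm B p τ) z := by
        refine tsum_congr fun z => ?_
        rw [Finset.sum_eq_single (cls A z)]
        · rw [Set.indicator_of_mem (by exact rfl)]
        · intro c _ hc
          rw [Set.indicator_of_notMem (by exact fun h => hc h.symm), mul_zero]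
        · intro h
          exact absurd (Finset.mem_univ _) h
    _ = ∑ c, ∑' z : ι → ℤ, F c * Set.indicator {z | cls A z = c} (thTerm B p τ) z :=
        Summable.tsum_finsetSum h1
    _ = ∑ c, F c * ∑' z : ι → ℤ, Set.indicator {z | cls A z = c} (thTerm B p τ) z := by
        refine Finset.sum_congr rfl fun c _ => ?_
        rw [tsum_mul_left]

/-- The coset sum as a sum over `ℤ^ι`. -/
theorem Theta_cls_eq_tsum (hBA : B * A = (p : ℤ) • 1) (z : ι → ℤ) (τ : ℂ) :
    Theta A B p (cls A z) τ = ∑' x : ι → ℤ, thTerm B p τ (A *ᵥ x + z) := by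
  unfold Theta
  have hp : (p : ℤ) ≠ 0 := by exact_mod_cast NeZero.ne p
  have hinj : Function.Injective (fun x : ι → ℤ => A *ᵥ x + z) := by
    intro x y hxy
    exact mulVec_injective_of_mul hp hBA (add_right_cancel hxy)
  have hsupp : Function.support (Set.indicator {w | cls A w = cls A z} (thTerm B p τ)) ⊆
      Set.range (fun x : ι → ℤ => A *ᵥ x + z) := by
    intro w hw
    have hw' : w ∈ {w | cls A w = cls A z} := by
      by_contra h
      exact hw (Set.indicator_of_notMem h _)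
    obtain ⟨x, hx⟩ := cls_eq_cls_iff.mp hw'
    exact ⟨x, by simp only [hx]; abel⟩
  rw [← hinj.tsum_eq hsupp]
  refine tsum_congr fun x => ?_
  rw [Set.indicator_of_mem]
  exact cls_eq_cls_iff.mpr ⟨x, by abel⟩

/-- **(S)**, from the inversion formula for the coset sums (explicit hypothesis `hinv`). -/
theorem Theta_inversion [Fintype (Disc A)] (hB : B.IsSymm) (hBA : B * A = (p : ℤ) • 1)
    (τ τ' κ : ℂ) (hsum : Summable (thTerm B p τ)) (z : ι → ℤ)
    (hinv : ∑' x : ι → ℤ, thTerm B p τ' (A *ᵥ x + z) =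
      κ * ∑' y : ι → ℤ, thTerm B p τ y * Complex.exp (2 * Real.pi * I * (bil B y z : ℂ) / p)) :
    Theta A B p (cls A z) τ' =
      κ * ∑ c, ZMod.stdAddChar (bD hB hBA c (cls A z)) * Theta A B p c τ := by
  rw [Theta_cls_eq_tsum hBA, hinv,
    ← tsum_classFun_mul_thTerm τ hsum (fun c => ZMod.stdAddChar (bD hB hBA c (cls A z)))]
  congr 1
  refine tsum_congr fun y => ?_
  rw [bD_cls, ZMod.stdAddChar_coe, mul_comm]

end

end Fermat.Agent.S16.H482
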