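import Fermat.Agent.S16.Interface
import Fermat.Agent.S16.H482.Theta
import Fermat.Agent.S16.H488.QCoeffTheta
import Fermat.Agent.S16.H722.Weil

/-!
# S16 / WP TH (main): `theta_mem_MF` in the exact skeleton shape

`thetaFun A ∈ MF (Gamma0 p) 2` for a good lattice `(A, B)` of level `p`, from the inversion
property `ThetaInv p A B`.

Assembly of: the discriminant module and the coset theta series (`H482.Disc`, `H482.Theta`),
the analytic facts on theta series with characteristic (`H488.ThetaSum`, helper488) and the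
abstract Weil representation induction (`H722.Weil`, helper722).
-/

set_option autoImplicit false
set_option linter.unusedSectionVars false
set_option linter.unusedVariables false

namespace Fermat.Agent.S16.H482

open Matrix Complex UpperHalfPlane ModularForm CongruenceSubgroup MatrixGroups
open scoped Manifold

section general

variable {ι : Type*} [Fintype ι] [DecidableEq ι]

lemma map_smul_one_cast (c : ℤ) :
    ((c • (1 : Matrix ι ι ℤ)).map (Int.cast : ℤ → ℚ)) = (c : ℚ) • (1 : Matrix ι ι ℚ) := by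
  ext i j
  simp only [Matrix.map_apply, Matrix.smul_apply, Matrix.one_apply, smul_eq_mul]
  split_ifs <;> simp

/-- `A * B = c • 1` implies `B * A = c • 1` for integer matrices, `c ≠ 0`. -/
lemma mul_comm_of_mul_eq_smul_one {A B : Matrix ι ι ℤ} {c : ℤ} (hc : c ≠ 0)
    (h : A * B = c • 1) : B * A = c • 1 := by
  have hinj : Function.Injective (fun M : Matrix ι ι ℤ => M.map (Int.cast : ℤ → ℚ)) :=
    Matrix.map_injective Int.cast_injective
  apply hinj
  show (B * A).map (Int.cast : ℤ → ℚ) = (c • (1 : Matrix ι ι ℤ)).map (Int.cast : ℤ → ℚ)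
  have hc' : (c : ℚ) ≠ 0 := by exact_mod_cast hc
  have h1 : (A.map (Int.cast : ℤ → ℚ)) * (B.map (Int.cast : ℤ → ℚ)) = (c : ℚ) • 1 := by
    rw [← Matrix.map_mul_intCast, h, map_smul_one_cast]
  have h2 : (A.map (Int.cast : ℤ → ℚ)) * ((c : ℚ)⁻¹ • (B.map (Int.cast : ℤ → ℚ))) = 1 := by
    rw [Matrix.mul_smul, h1, smul_smul, inv_mul_cancel₀ hc', one_smul]
  have h3 := mul_eq_one_comm.mp h2
  rw [Matrix.smul_mul] at h3
  have h4 : (B.map (Int.cast : ℤ → ℚ)) * (A.map (Int.cast : ℤ → ℚ)) = (c : ℚ) • 1 := by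
    have := congrArg (fun M => (c : ℚ) • M) h3
    rw [smul_smul, mul_inv_cancel₀ hc', one_smul] at this
    exact this
  rw [Matrix.map_mul_intCast, h4, map_smul_one_cast]

/-- If `A` is symmetric and `A * B = c • 1`, `c ≠ 0`, then `B` is symmetric. -/
lemma isSymm_of_mul_eq_smul_one {A B : Matrix ι ι ℤ} {c : ℤ} (hc : c ≠ 0) (hA : A.IsSymm)
    (h : A * B = c • 1) : B.IsSymm := by
  have hBA := mul_comm_of_mul_eq_smul_one hc h
  have h1 : Bᵀ * A = c • 1 := by
    have := congrArg Matrix.transpose h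
    rw [Matrix.transpose_mul, hA.eq, Matrix.transpose_smul, Matrix.transpose_one] at this
    exact this
  have h2 : Bᵀ * A * B = B * A * B := by rw [h1, hBA]
  rw [Matrix.mul_assoc, Matrix.mul_assoc, h, Matrix.mul_smul, Matrix.mul_smul, Matrix.mul_one,
    Matrix.mul_one] at h2
  unfold Matrix.IsSymm
  ext i j
  have := congrFun (congrFun h2 i) j
  simp only [Matrix.smul_apply, smul_eq_mul] at this
  exact mul_left_cancel₀ hc this

lemma bil_zsmul (B : Matrix ι ι ℤ) (n : ℤ) (z : ι → ℤ) :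
    bil B (n • z) (n • z) = n ^ 2 * bil B z z := by
  unfold bil
  rw [Matrix.mulVec_smul, dotProduct_smul, smul_dotProduct]
  simp only [smul_eq_mul]
  ring

lemma halfQ_zsmul {B : Matrix ι ι ℤ} (hB : B.IsSymm) (hev : ∀ i, Even (B i i)) (n : ℤ)
    (z : ι → ℤ) : halfQ B (n • z) = n ^ 2 * halfQ B z := by
  have h1 := two_mul_halfQ hB hev (n • z)
  have h2 := two_mul_halfQ hB hev z
  rw [bil_zsmul] at h1
  have : 2 * halfQ B (n • z) = 2 * (n ^ 2 * halfQ B z) := by rw [h1, ← h2]; ring
  linarith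

lemma qD_zsmul {A B : Matrix ι ι ℤ} {p : ℕ} (hA : A.IsSymm) (hB : B.IsSymm)
    (hevA : ∀ i, Even (A i i)) (hevB : ∀ i, Even (B i i)) (hBA : B * A = (p : ℤ) • 1)
    (n : ℤ) (c : Disc A) :
    qD hA hB hevA hevB hBA (n • c) = (n : ZMod p) ^ 2 * qD hA hB hevA hevB hBA c := by
  induction c using Submodule.Quotient.induction_on with
  | _ z =>
    have h : (n • Submodule.Quotient.mk z : Disc A) = cls A (n • z) := rfl
    rw [h, qD_cls, qD_cls, halfQ_zsmul hB hevB]
    push_cast
    rfl

/-- The real characteristic attached to the integer vector `z`: `h = A⁻¹ z = B z / p`. -/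
noncomputable def charVec (B : Matrix ι ι ℤ) (p : ℕ) (z : ι → ℤ) : ι → ℝ :=
  fun i => ((B *ᵥ z) i : ℝ) / p

/-- The key identity `(x + A⁻¹ z)ᵀ A (x + A⁻¹ z) = (A x + z)ᵀ B (A x + z) / p`. -/
lemma quadR_shiftVec_charVec {A B : Matrix ι ι ℤ} {p : ℕ} (hp : p ≠ 0) (hB : B.IsSymm)
    (hAB : A * B = (p : ℤ) • 1) (hBA : B * A = (p : ℤ) • 1) (z x : ι → ℤ) :
    H488.quadR (A.map (Int.cast : ℤ → ℝ)) (H488.shiftVec (charVec B p z) x) =
      (bil B (A *ᵥ x + z) (A *ᵥ x + z) : ℝ) / p := by
  have hp' : (p : ℝ) ≠ 0 := Nat.cast_ne_zero.mpr hp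
  set w : ι → ℤ := A *ᵥ x + z with hw
  have h1 : (p : ℝ) • H488.shiftVec (charVec B p z) x = H488.intVec (B *ᵥ w) := by
    funext i
    simp only [Pi.smul_apply, smul_eq_mul, H488.shiftVec, charVec, H488.intVec]
    have h2 : B *ᵥ w = (p : ℤ) • x + B *ᵥ z := by
      rw [hw, Matrix.mulVec_add, Matrix.mulVec_mulVec, hBA, Matrix.smul_mulVec,
        Matrix.one_mulVec]
    rw [h2]
    simp only [Pi.add_apply, Pi.smul_apply, smul_eq_mul]
    push_cast
    field_simp
  have h3 := H488.quadR_smul (A.map (Int.cast : ℤ → ℝ)) (p : ℝ)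
    (H488.shiftVec (charVec B p z) x)
  rw [h1, H488.quadR_map_intCast] at h3
  have h4 : (B *ᵥ w) ⬝ᵥ (A *ᵥ (B *ᵥ w)) = (p : ℤ) * bil B w w := by
    rw [Matrix.mulVec_mulVec, hAB, Matrix.smul_mulVec, Matrix.one_mulVec, dotProduct_smul,
      smul_eq_mul]
    congr 1
    unfold bil
    rw [dotProduct_comm]
  rw [h4] at h3
  push_cast at h3
  rw [eq_div_iff hp']
  have h5 : (p : ℝ) * (H488.quadR (A.map (Int.cast : ℤ → ℝ))
      (H488.shiftVec (charVec B p z) x) * p) = (p : ℝ) * (bil B w w : ℝ) := by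
    rw [h3]; ring
  exact mul_left_cancel₀ hp' h5

/-- `Θ_c` as a function on the upper half plane. -/
noncomputable def ThetaH (A B : Matrix ι ι ℤ) (p : ℕ) (c : Disc A) : ℍ → ℂ :=
  fun τ => Theta A B p c (τ : ℂ)

lemma thTerm_coset_eq {A B : Matrix ι ι ℤ} {p : ℕ} (hp : p ≠ 0) (hB : B.IsSymm)
    (hAB : A * B = (p : ℤ) • 1) (hBA : B * A = (p : ℤ) • 1) (z x : ι → ℤ) (τ : ℂ) :
    thTerm B p τ (A *ᵥ x + z) =
      H488.thetaTerm (A.map (Int.cast : ℤ → ℝ)) (charVec B p z) τ x := by
  unfold thTerm H488.thetaTerm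
  rw [quadR_shiftVec_charVec hp hB hAB hBA]
  congr 1
  push_cast
  ring

/-- The coset theta series is the theta series with characteristic `A⁻¹ z`. -/
lemma ThetaH_cls_eq {A B : Matrix ι ι ℤ} {p : ℕ} [NeZero p] (hB : B.IsSymm)
    (hAB : A * B = (p : ℤ) • 1) (hBA : B * A = (p : ℤ) • 1) (z : ι → ℤ) :
    ThetaH A B p (cls A z) = H488.thetaFun (A.map (Int.cast : ℤ → ℝ)) (charVec B p z) := by
  funext τ
  unfold ThetaH H488.thetaFun H488.thetaChar
  rw [Theta_cls_eq_tsum hBA]
  exact tsum_congr fun x => thTerm_coset_eq (NeZero.ne p) hB hAB hBA z x τ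

lemma charVec_zero (B : Matrix ι ι ℤ) (p : ℕ) : charVec B p 0 = 0 := by
  funext i
  simp [charVec]

lemma mdiff_ThetaH {A B : Matrix ι ι ℤ} {p : ℕ} [NeZero p] (hB : B.IsSymm)
    (hAB : A * B = (p : ℤ) • 1) (hBA : B * A = (p : ℤ) • 1)
    (hpos : (A.map (Int.cast : ℤ → ℝ)).PosDef) (c : Disc A) : MDiff (ThetaH A B p c) := by
  induction c using Submodule.Quotient.induction_on with
  | _ z =>
    have h : (Submodule.Quotient.mk z : Disc A) = cls A z := rfl
    rw [h, ThetaH_cls_eq hB hAB hBA]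
    exact H488.mdifferentiable_thetaFun (H488.coercive_of_posDef hpos) _

lemma isBoundedAtImInfty_ThetaH {A B : Matrix ι ι ℤ} {p : ℕ} [NeZero p] (hB : B.IsSymm)
    (hAB : A * B = (p : ℤ) • 1) (hBA : B * A = (p : ℤ) • 1)
    (hpos : (A.map (Int.cast : ℤ → ℝ)).PosDef) (c : Disc A) :
    IsBoundedAtImInfty (ThetaH A B p c) := by
  induction c using Submodule.Quotient.induction_on with
  | _ z =>
    have h : (Submodule.Quotient.mk z : Disc A) = cls A z := rfl
    rw [h, ThetaH_cls_eq hB hAB hBA]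
    exact H488.isBoundedAtImInfty_thetaFun (H488.coercive_of_posDef hpos) _

/-- `Θ_0` does not vanish identically (it is positive on the imaginary axis). -/
lemma ThetaH_zero_ne_zero {A B : Matrix ι ι ℤ} {p : ℕ} [NeZero p] (hB : B.IsSymm)
    (hAB : A * B = (p : ℤ) • 1) (hBA : B * A = (p : ℤ) • 1)
    (hpos : (A.map (Int.cast : ℤ → ℝ)).PosDef) : ThetaH A B p (0 : Disc A) ≠ 0 := by
  have h0 : (0 : Disc A) = cls A 0 := rfl
  rw [h0, ThetaH_cls_eq hB hAB hBA, charVec_zero]
  intro hzero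
  have hI := congrFun hzero UpperHalfPlane.I
  simp only [H488.thetaFun, H488.thetaChar, Pi.zero_apply] at hI
  have hco := H488.coercive_of_posDef hpos
  have hterm : ∀ x : ι → ℤ,
      H488.thetaTerm (A.map (Int.cast : ℤ → ℝ)) 0 ((UpperHalfPlane.I : ℍ) : ℂ) x =
        ((Real.exp (-(Real.pi * 1) * H488.quadR (A.map (Int.cast : ℤ → ℝ))
          (H488.shiftVec 0 x)) : ℝ) : ℂ) := by
    intro x
    unfold H488.thetaTerm
    rw [UpperHalfPlane.coe_I, Complex.ofReal_exp]
    congr 1
    push_cast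
    have : Complex.I * Complex.I = -1 := Complex.I_mul_I
    linear_combination (↑Real.pi * ↑(H488.quadR (A.map (Int.cast : ℤ → ℝ))
      (H488.shiftVec 0 x))) * this
  rw [tsum_congr hterm, ← Complex.ofReal_tsum] at hI
  have hsum := H488.summable_exp_neg_quadR hco (mul_pos Real.pi_pos one_pos) (0 : ι → ℝ)
  have hpos' : 0 < ∑' x : ι → ℤ, Real.exp (-(Real.pi * 1) *
      H488.quadR (A.map (Int.cast : ℤ → ℝ)) (H488.shiftVec 0 x)) :=
    hsum.tsum_pos (fun x => (Real.exp_pos _).le) 0 (Real.exp_pos _)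
  have : (∑' x : ι → ℤ, Real.exp (-(Real.pi * 1) *
      H488.quadR (A.map (Int.cast : ℤ → ℝ)) (H488.shiftVec 0 x))) = 0 := by
    exact_mod_cast hI
  linarith

/-- `B / p = A⁻¹` is positive definite, hence the full `B`-theta series is summable. -/
lemma summable_thTerm {A B : Matrix ι ι ℤ} {p : ℕ} [NeZero p] (hB : B.IsSymm)
    (hAB : A * B = (p : ℤ) • 1) (hBA : B * A = (p : ℤ) • 1)
    (hpos : (A.map (Int.cast : ℤ → ℝ)).PosDef) {τ : ℂ} (hτ : 0 < τ.im) :
    Summable (thTerm B p τ) := by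
  classical
  haveI : Finite (Disc A) := finite_Disc (by exact_mod_cast NeZero.ne p) hBA
  letI : Fintype (Disc A) := Fintype.ofFinite _
  have hco := H488.coercive_of_posDef hpos
  -- each coset sum is summable
  have h1 : ∀ c : Disc A, Summable (Set.indicator {z | cls A z = c} (thTerm B p τ)) := by
    intro c
    induction c using Submodule.Quotient.induction_on with
    | _ z =>
      have hinj : Function.Injective (fun x : ι → ℤ => A *ᵥ x + z) := by
        intro x y hxy
        exact mulVec_injective_of_mul (by exact_mod_cast NeZero.ne p) hBA (add_right_cancel hxy)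
      have hrange : ∀ w ∉ Set.range (fun x : ι → ℤ => A *ᵥ x + z),
          Set.indicator {w | cls A w = cls A z} (thTerm B p τ) w = 0 := by
        intro w hw
        apply Set.indicator_of_notMem
        intro hmem
        obtain ⟨x, hx⟩ := cls_eq_cls_iff.mp hmem
        exact hw ⟨x, by simp only [hx]; abel⟩
      rw [← hinj.summable_iff hrange]
      have := H488.summable_thetaTerm hco (charVec B p z) hτ
      refine this.congr fun x => ?_
      simp only [Function.comp_apply]
      rw [Set.indicator_of_mem (by exact cls_eq_cls_iff.mpr ⟨x, by abel⟩)]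
      exact (thTerm_coset_eq (NeZero.ne p) hB hAB hBA z x τ).symm
  have h2 : thTerm B p τ = fun z => ∑ c : Disc A,
      Set.indicator {z | cls A z = c} (thTerm B p τ) z := by
    funext z
    rw [Finset.sum_eq_single (cls A z)]
    · rw [Set.indicator_of_mem (by exact rfl)]
    · intro c _ hc
      exact Set.indicator_of_notMem (by exact fun h => hc h.symm) _
    · intro h
      exact absurd (Finset.mem_univ _) h
  rw [h2]
  exact summable_sum fun c _ => h1 c

end general

section slash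

lemma slash_T_apply482 (f : ℍ → ℂ) (τ : ℍ) :
    (f ∣[(2 : ℤ)] ModularGroup.T) τ = f (ModularGroup.T • τ) := by
  rw [ModularForm.SL_slash_apply]
  have : denom (ModularGroup.T : SL(2, ℤ)) τ = 1 := by
    simp [denom, ModularGroup.coe_T]
  rw [this, _root_.one_zpow, mul_one]

lemma slash_S_apply482 (f : ℍ → ℂ) (τ : ℍ) :
    (f ∣[(2 : ℤ)] ModularGroup.S) τ = f (ModularGroup.S • τ) * ((τ : ℂ) ^ 2)⁻¹ := by
  rw [ModularForm.SL_slash_apply]
  have : denom (ModularGroup.S : SL(2, ℤ)) τ = τ := by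
    simp [denom, ModularGroup.coe_S]
  rw [this, _root_.zpow_neg]
  norm_cast

lemma coe_T_smul482 (τ : ℍ) : ((ModularGroup.T • τ : ℍ) : ℂ) = (τ : ℂ) + 1 := by
  rw [UpperHalfPlane.modular_T_smul]
  simp [add_comm]

end slash

section main

open Fermat.Agent.S20 (MF SF)

variable {p : ℕ} [Fact p.Prime] {A B : Matrix (Fin 4) (Fin 4) ℤ}

/-- The hypothesis `ThetaInv` in the shape consumed by `Theta_inversion`. -/
lemma hinv_convert (hB : B.IsSymm) (hBA : B * A = (p : ℤ) • 1) (hinv : ThetaInv p A B)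
    (y : Fin 4 → ℤ) (τ : ℍ) :
    ∑' x : Fin 4 → ℤ, thTerm B p ((ModularGroup.S • τ : ℍ) : ℂ) (A *ᵥ x + y) =
      (-(τ : ℂ) ^ 2 / p) * ∑' w : Fin 4 → ℤ, thTerm B p (τ : ℂ) w *
        Complex.exp (2 * Real.pi * Complex.I * (bil B w y : ℂ) / p) := by
  have hp : (p : ℂ) ≠ 0 := Nat.cast_ne_zero.mpr (Fact.out : p.Prime).ne_zero
  have h := hinv y τ
  unfold thetaChar at h
  have hL : ∀ x : Fin 4 → ℤ, thTerm B p ((ModularGroup.S • τ : ℍ) : ℂ) (A *ᵥ x + y) =
      Complex.exp (Real.pi * Complex.I * ((ModularGroup.S • τ : ℍ) : ℂ) *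
        ((qf A x : ℂ) + 2 * ((x ⬝ᵥ y : ℤ) : ℂ) + (qf B y : ℂ) / p)) := by
    intro x
    unfold thTerm
    congr 1
    have hid : bil B (A *ᵥ x + y) (A *ᵥ x + y) =
        (p : ℤ) * qf A x + 2 * (p : ℤ) * (x ⬝ᵥ y) + qf B y := by
      rw [bil_add_left, bil_add_right, bil_add_right, bil_mulVec_left hB hBA,
        bil_mulVec_left hB hBA, bil_mulVec_right hBA, dotProduct_comm y x]
      unfold qf bil
      ring
    rw [hid]
    push_cast
    field_simp
  have hR : ∀ w : Fin 4 → ℤ, thTerm B p (τ : ℂ) w *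
      Complex.exp (2 * Real.pi * Complex.I * (bil B w y : ℂ) / p) =
      Complex.exp (Real.pi * Complex.I * τ * ((qf B w : ℂ) / p) +
        2 * Real.pi * Complex.I * (((w ⬝ᵥ B.mulVec y : ℤ) : ℂ) / p)) := by
    intro w
    unfold thTerm
    rw [← Complex.exp_add]
    congr 1
    unfold qf bil
    ring
  rw [tsum_congr hL, h, tsum_congr hR]

/-- **WP TH (main)**, exact skeleton statement `Skel.theta_mem_MF`. -/
theorem theta_mem_MF (p : ℕ) [Fact p.Prime] (A B : Matrix (Fin 4) (Fin 4) ℤ)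
    (hA : IsGoodLattice p A B) (hinv : ThetaInv p A B) :
    thetaFun A ∈ MF (Gamma0 p) 2 := by
  classical
  have hpne : p ≠ 0 := (Fact.out : p.Prime).ne_zero
  have hp0 : (p : ℤ) ≠ 0 := by exact_mod_cast hpne
  have hpC : (p : ℂ) ≠ 0 := Nat.cast_ne_zero.mpr hpne
  have hAB := hA.mul_eq
  have hBA : B * A = (p : ℤ) • 1 := mul_comm_of_mul_eq_smul_one hp0 hAB
  have hBs : B.IsSymm := isSymm_of_mul_eq_smul_one hp0 hA.symm hAB
  have hfin : Finite (Disc A) := finite_Disc hp0 hBA
  let _inst : Fintype (Disc A) := Fintype.ofFinite _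
  have hcard : Fintype.card (Disc A) = p ^ 2 := by
    rw [← Nat.card_eq_fintype_card, card_Disc hp0 hBA, hA.det_eq]
    rw [Int.natAbs_pow, Int.natAbs_natCast]
  let W : H722.WeilSystem p (Disc A) :=
    { q := qD hA.symm hBs hA.even hA.even' hBA
      b := bD hBs hBA
      s := 1
      s_mul_s := one_mul 1
      q_add := qD_add hA.symm hBs hA.even hA.even' hBA
      q_smul := qD_zsmul hA.symm hBs hA.even hA.even' hBA
      b_add_left := bD_add_left hBs hBA
      b_nondeg := by
        intro h hh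
        by_contra hcon
        push Not at hcon
        exact hh (bD_nondegenerate (Nat.pos_of_ne_zero hpne) hBs hAB hBA h hcon)
      card_eq := hcard
      Θ := ThetaH A B p
      slash_T := by
        intro h
        ext τ
        rw [slash_T_apply482]
        simp only [ThetaH, Pi.smul_apply, smul_eq_mul]
        rw [coe_T_smul482, Theta_add_one hA.symm hBs hA.even hA.even' hBA]
      slash_S := by
        intro h
        ext τ
        rw [slash_S_apply482]
        induction h using Submodule.Quotient.induction_on with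
        | _ z =>
          have hz : (Submodule.Quotient.mk z : Disc A) = cls A z := rfl
          rw [hz]
          have hsum : Summable (thTerm B p (τ : ℂ)) :=
            summable_thTerm hBs hAB hBA hA.posDef τ.im_pos
          have key := Theta_inversion hBs hBA (τ : ℂ) ((ModularGroup.S • τ : ℍ) : ℂ)
            (-(τ : ℂ) ^ 2 / p) hsum z (hinv_convert hBs hBA hinv z τ)
          simp only [ThetaH, Pi.smul_apply, Finset.sum_apply, smul_eq_mul]
          rw [key]
          have hτ : (τ : ℂ) ≠ 0 := UpperHalfPlane.ne_zero τ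
          have hsumeq : ∑ c : Disc A, ZMod.stdAddChar (bD hBs hBA c (cls A z)) *
              Theta A B p c (τ : ℂ) =
              ∑ k : Disc A, (H722.QuadData.e p) (1 * bD hBs hBA (cls A z) k) *
                Theta A B p k (τ : ℂ) := by
            refine Finset.sum_congr rfl fun k _ => ?_
            rw [one_mul, bD_comm hBs hBA k (cls A z)]
          rw [hsumeq]
          field_simp
      ne_zero := ThetaH_zero_ne_zero hBs hAB hBA hA.posDef }
  have hΘ0 : W.Θ 0 = thetaFun A := by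
    show ThetaH A B p (0 : Disc A) = thetaFun A
    have h0 : (0 : Disc A) = cls A 0 := rfl
    rw [h0, ThetaH_cls_eq hBs hAB hBA, charVec_zero, H488.interface_thetaFun_eq]
  have hbdd : ∀ h : Disc A, IsBoundedAtImInfty (W.Θ h) :=
    fun h => isBoundedAtImInfty_ThetaH hBs hAB hBA hA.posDef h
  refine ⟨?_, ?_, ?_⟩
  · rw [← hΘ0]
    exact mdiff_ThetaH hBs hAB hBA hA.posDef 0
  · intro γ hγ
    rw [← hΘ0]
    exact W.slash_Gamma0 γ hγ
  · intro γ
    rw [← hΘ0]
    exact W.isBoundedAtImInfty_slash hbdd γ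

end main

end Fermat.Agent.S16.H482
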